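import Fermat.Agent.Fabry.Turan
import Mathlib.Analysis.Complex.Liouville
import Mathlib.Analysis.Complex.LocallyUniformLimit
import Mathlib.Analysis.SpecialFunctions.Trigonometric.Bounds
import Mathlib.Analysis.SpecificLimits.Normed
import Mathlib.RingTheory.RootsOfUnity.Complex

/-!
# Fabry's gap theorem

If the series continues near `1`, the Taylor coefficients of order `k` at the points of
`|z| = 1 / 2` near `1 / 2` are `O (R ^ (-k))` with `R > 1 / 2`. Up to `O (1)` they are exponential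
sums with `o (k)` terms, so by Turán's lemma this holds on the whole circle with a smaller
`R' > 1 / 2`, and the Fourier coefficients give `|a n| (1 / 2 + R'') ^ n = O (1)`.
-/

set_option autoImplicit false

noncomputable section

namespace FA.Fabry

open Filter Finset Complex Metric
open scoped Topology Nat

variable {a : ℕ → ℂ}

/-- The series. -/
def fseries (a : ℕ → ℂ) (z : ℂ) : ℂ := ∑' n, a n * z ^ n

/-- A term of the Taylor coefficient of order `k` at `z`. -/
def taylorTerm (a : ℕ → ℂ) (k : ℕ) (z : ℂ) (n : ℕ) : ℂ := a n * n.choose k * z ^ (n - k)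

theorem summable_descFactorial (hsum : ∀ r : ℝ, 0 ≤ r → r < 1 → Summable fun n => ‖a n‖ * r ^ n)
    (k : ℕ) {r : ℝ} (hr0 : 0 < r) (hr : r < 1) :
    Summable fun n => ‖a n‖ * n.descFactorial k * r ^ (n - k) := by
  obtain ⟨r', hr', hr'1⟩ := exists_between hr
  have hr'0 : 0 < r' := hr0.trans hr'
  obtain ⟨M, hM⟩ := (tendsto_pow_const_mul_const_pow_of_abs_lt_one k
    (show |r / r'| < 1 by rw [abs_of_pos (by positivity)]; exact (div_lt_one hr'0).2 hr'))
    |>.bddAbove_range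
  refine Summable.of_nonneg_of_le (fun n => by positivity) (fun n => ?_)
    ((hsum r' hr'0.le hr'1).mul_left (M / r ^ k))
  rcases lt_or_ge n k with hnk | hnk
  · rw [Nat.descFactorial_eq_zero_iff_lt.2 hnk, Nat.cast_zero, mul_zero, zero_mul]
    have : 0 ≤ M := le_trans (by positivity) (hM ⟨0, rfl⟩)
    positivity
  have h1 : (n.descFactorial k : ℝ) ≤ (n : ℝ) ^ k := by exact_mod_cast Nat.descFactorial_le_pow n k
  have h2 : (n : ℝ) ^ k * (r / r') ^ n ≤ M := hM ⟨n, rfl⟩
  have h3 : r ^ (n - k) = r ^ n / r ^ k := by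
    rw [eq_div_iff (by positivity), ← pow_add, Nat.sub_add_cancel hnk]
  rw [h3]
  calc ‖a n‖ * n.descFactorial k * (r ^ n / r ^ k)
      ≤ ‖a n‖ * (n : ℝ) ^ k * (r ^ n / r ^ k) := by gcongr
    _ = ‖a n‖ * r' ^ n * ((n : ℝ) ^ k * (r / r') ^ n / r ^ k) := by rw [div_pow]; field_simp
    _ ≤ ‖a n‖ * r' ^ n * (M / r ^ k) := by gcongr
    _ = _ := by ring

theorem summable_norm_taylorTerm
    (hsum : ∀ r : ℝ, 0 ≤ r → r < 1 → Summable fun n => ‖a n‖ * r ^ n) (k : ℕ) {z : ℂ}
    (hz : ‖z‖ < 1) : Summable fun n => ‖taylorTerm a k z n‖ := by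
  obtain ⟨r, hr, hr1⟩ := exists_between hz
  refine Summable.of_nonneg_of_le (fun n => norm_nonneg _) (fun n => ?_)
    (summable_descFactorial hsum k ((norm_nonneg z).trans_lt hr) hr1)
  rw [taylorTerm, norm_mul, norm_mul, Complex.norm_natCast, norm_pow]
  have h1 : (n.choose k : ℝ) ≤ n.descFactorial k := Nat.cast_le.2 (by
    rw [Nat.descFactorial_eq_factorial_mul_choose]
    exact Nat.le_mul_of_pos_left _ k.factorial_pos)
  gcongr

/-- **The Taylor coefficients of the series at a point of the disc.** -/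
theorem iteratedDeriv_fseries (hsum : ∀ r : ℝ, 0 ≤ r → r < 1 → Summable fun n => ‖a n‖ * r ^ n)
    (k : ℕ) : ∀ z : ℂ, ‖z‖ < 1 →
      iteratedDeriv k (fseries a) z = (k ! : ℂ) * ∑' n, taylorTerm a k z n := by
  induction k with
  | zero => exact fun z _ => by simp [fseries, taylorTerm]
  | succ k ih =>
    intro z hz
    obtain ⟨r, hr, hr1⟩ := exists_between hz
    have hr0 : 0 < r := (norm_nonneg z).trans_lt hr
    have hzU : z ∈ ball (0 : ℂ) r := by simpa using hr
    obtain ⟨F, hF⟩ : ∃ F : ℕ → ℂ → ℂ,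
        F = fun n w => a n * (n.descFactorial k : ℂ) * w ^ (n - k) := ⟨_, rfl⟩
    have hev : iteratedDeriv k (fseries a) =ᶠ[𝓝 z] fun w => ∑' n, F n w := by
      filter_upwards [isOpen_ball.mem_nhds hzU] with w hw
      rw [ih w (lt_trans (by simpa using hw) hr1), ← tsum_mul_left, hF]
      refine tsum_congr fun n => ?_
      simp only [taylorTerm, Nat.descFactorial_eq_factorial_mul_choose, Nat.cast_mul]
      ring
    have hbound : ∀ (n : ℕ) (w : ℂ), w ∈ ball (0 : ℂ) r →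
        ‖F n w‖ ≤ ‖a n‖ * n.descFactorial k * r ^ (n - k) := fun n w hw => by
      rw [hF]
      simp only [norm_mul, norm_pow, Complex.norm_natCast]
      refine mul_le_mul_of_nonneg_left
        (pow_le_pow_left₀ (norm_nonneg w) (le_of_lt (by simpa using hw)) _) (by positivity)
    have hd := Complex.hasSum_deriv_of_summable_norm (summable_descFactorial hsum k hr0 hr1)
      (fun n => by rw [hF]; exact DifferentiableOn.const_mul (differentiableOn_id.pow _) _)
      isOpen_ball hbound hzU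
    rw [iteratedDeriv_succ, hev.deriv_eq, ← hd.tsum_eq, ← tsum_mul_left]
    refine tsum_congr fun n => ?_
    rw [hF, deriv_const_mul_field, deriv_pow_field, taylorTerm, Nat.sub_sub]
    have e : ((n.descFactorial k : ℕ) : ℂ) * ((n - k : ℕ) : ℂ) =
        ((k + 1)! : ℂ) * (n.choose (k + 1) : ℕ) := by
      rw [← Nat.cast_mul, ← Nat.cast_mul, ← Nat.descFactorial_eq_factorial_mul_choose,
        Nat.descFactorial_succ, mul_comm]
    linear_combination a n * z ^ (n - (k + 1)) * e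

theorem differentiableAt_fseries (hsum : ∀ r : ℝ, 0 ≤ r → r < 1 → Summable fun n => ‖a n‖ * r ^ n)
    {z : ℂ} (hz : ‖z‖ < 1) : DifferentiableAt ℂ (fseries a) z := by
  obtain ⟨r, hr, hr1⟩ := exists_between hz
  refine (Complex.differentiableOn_tsum_of_summable_norm (U := ball (0 : ℂ) r)
    (F := fun n w => a n * w ^ n) (hsum r ((norm_nonneg z).trans hr.le) hr1)
    (fun n => DifferentiableOn.const_mul (differentiableOn_id.pow _) _)
    isOpen_ball fun n w hw => ?_).differentiableAt (isOpen_ball.mem_nhds (by simpa using hr))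
  rw [norm_mul, norm_pow]
  exact mul_le_mul_of_nonneg_left
    (pow_le_pow_left₀ (norm_nonneg w) (le_of_lt (by simpa using hw)) _) (norm_nonneg _)

/-- The Taylor bound near `1 / 2` from a continuation near `1`. -/
theorem exists_taylor_bound (hsum : ∀ r : ℝ, 0 ≤ r → r < 1 → Summable fun n => ‖a n‖ * r ^ n)
    {g : ℂ → ℂ} {ρ : ℝ} (hρ : 0 < ρ) (hg : DifferentiableOn ℂ g (ball 1 ρ))
    (heq : ∀ z ∈ ball (1 : ℂ) ρ, ‖z‖ < 1 → g z = fseries a z) :
    ∃ R M α : ℝ, 1 / 2 < R ∧ 0 < α ∧ 0 ≤ M ∧ ∀ (k : ℕ) (t : ℝ), |t| ≤ α →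
      ‖∑' n, taylorTerm a k (cexp (I * t) / 2) n‖ ≤ M / R ^ k := by
  obtain ⟨F, hF⟩ : ∃ F : ℂ → ℂ, F = fun z => if ‖z‖ < 1 then fseries a z else g z := ⟨_, rfl⟩
  have hFd : ∀ z, (‖z‖ < 1 ∨ z ∈ ball (1 : ℂ) ρ) → DifferentiableAt ℂ F z := by
    rintro z (hz | hz)
    · refine (differentiableAt_fseries hsum hz).congr_of_eventuallyEq ?_
      filter_upwards [(isOpen_lt continuous_norm continuous_const).mem_nhds
        (show z ∈ {w : ℂ | ‖w‖ < 1} from hz)] with w hw
      rw [hF]; exact if_pos hw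
    · refine (hg.differentiableAt (isOpen_ball.mem_nhds hz)).congr_of_eventuallyEq ?_
      filter_upwards [isOpen_ball.mem_nhds hz] with w hw
      rw [hF]
      dsimp only
      split_ifs with h
      · exact (heq w hw h).symm
      · rfl
  obtain ⟨δ, hδ⟩ : ∃ δ : ℝ, δ = min (1 / 8) (ρ ^ 2 / 8) := ⟨_, rfl⟩
  have hδ0 : 0 < δ := hδ ▸ lt_min (by norm_num) (by positivity)
  have hδ1 : δ ≤ 1 / 8 := hδ ▸ min_le_left _ _
  have hδ2 : δ ≤ ρ ^ 2 / 8 := hδ ▸ min_le_right _ _
  have hU : ∀ w ∈ closedBall ((1 : ℂ) / 2) (1 / 2 + 2 * δ), ‖w‖ < 1 ∨ w ∈ ball (1 : ℂ) ρ := by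
    intro w hw
    refine (lt_or_ge ‖w‖ 1).imp_right fun h1 => ?_
    rw [mem_closedBall, dist_eq_norm] at hw
    have h2 : ‖w - 1 / 2‖ ^ 2 ≤ (1 / 2 + 2 * δ) ^ 2 := pow_le_pow_left₀ (norm_nonneg _) hw 2
    have h3 : 1 ≤ ‖w‖ ^ 2 := one_le_pow₀ h1
    rw [← Complex.normSq_eq_norm_sq, Complex.normSq_apply] at h2 h3
    rw [mem_ball, dist_eq_norm]
    refine (pow_lt_pow_iff_left₀ (norm_nonneg _) hρ.le two_ne_zero).1 ?_
    rw [← Complex.normSq_eq_norm_sq, Complex.normSq_apply]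
    simp at h2 h3 ⊢
    nlinarith
  obtain ⟨M, hM⟩ :=
    (isCompact_closedBall ((1 : ℂ) / 2) (1 / 2 + 2 * δ)).exists_bound_of_continuousOn fun w hw =>
      (hFd w (hU w hw)).continuousAt.continuousWithinAt
  have hM0 : 0 ≤ M := (norm_nonneg _).trans (hM (1 / 2) (by simp; linarith))
  refine ⟨1 / 2 + δ, M, δ, by linarith, hδ0, hM0, fun k t ht => ?_⟩
  obtain ⟨z, hz⟩ : ∃ z : ℂ, z = cexp (I * t) / 2 := ⟨_, rfl⟩
  rw [← hz]
  have hz1 : ‖z‖ < 1 := by
    rw [hz, norm_div, norm_exp_I_mul_ofReal, Complex.norm_two]; norm_num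
  have hzd : ‖z - 1 / 2‖ ≤ δ := by
    rw [hz, ← sub_div, norm_div, Complex.norm_two]
    have := Real.norm_exp_I_mul_ofReal_sub_one_le (x := t)
    rw [Real.norm_eq_abs] at this
    linarith [abs_nonneg t]
  have hsub : closedBall z (1 / 2 + δ) ⊆ closedBall ((1 : ℂ) / 2) (1 / 2 + 2 * δ) := by
    refine closedBall_subset_closedBall' ?_
    rw [dist_eq_norm]
    linarith
  have hdc : DiffContOnCl ℂ F (ball z (1 / 2 + δ)) :=
    DifferentiableOn.diffContOnCl fun w hw =>
      (hFd w (hU w (hsub (closure_ball_subset_closedBall hw)))).differentiableWithinAt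
  have h := Complex.norm_iteratedDeriv_le_of_forall_mem_sphere_norm_le k (by linarith) hdc
    fun w hw => hM w (hsub (sphere_subset_closedBall hw))
  have hFf : F =ᶠ[𝓝 z] fseries a := by
    filter_upwards [(isOpen_lt continuous_norm continuous_const).mem_nhds
      (show z ∈ {w : ℂ | ‖w‖ < 1} from hz1)] with w hw
    rw [hF]; exact if_pos hw
  rw [hFf.iteratedDeriv_eq k, iteratedDeriv_fseries hsum k z hz1, norm_mul,
    Complex.norm_natCast, mul_div_assoc] at h
  exact le_of_mul_le_mul_left h (Nat.cast_pos.2 k.factorial_pos)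

/-- The terms above `10 k` are bounded. -/
theorem exists_tail_bound (hsum : ∀ r : ℝ, 0 ≤ r → r < 1 → Summable fun n => ‖a n‖ * r ^ n) :
    ∃ A : ℝ, 0 ≤ A ∧ ∀ k n, 10 * k < n → ‖a n‖ * n.choose k * (1 / 2) ^ (n - k) ≤
      A * (9 / 10) ^ n := by
  have h9 := hsum (9 / 10) (by norm_num) (by norm_num)
  obtain ⟨A, hA⟩ : ∃ A, A = ∑' n, ‖a n‖ * (9 / 10 : ℝ) ^ n := ⟨_, rfl⟩
  refine ⟨A, hA ▸ tsum_nonneg fun n => by positivity, fun k n hkn => ?_⟩
  have ha : ‖a n‖ * (9 / 10 : ℝ) ^ n ≤ A :=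
    hA ▸ h9.le_tsum n fun m _ => by positivity
  have hc : (n.choose k : ℝ) * (1 / 10) ^ k ≤ (11 / 10) ^ n := by
    have := single_le_sum (f := fun i : ℕ => (1 / 10 : ℝ) ^ i * 1 ^ (n - i) * n.choose i)
      (fun i _ => by positivity) (mem_range.2 (show k < n + 1 by omega))
    rw [← add_pow, one_pow, mul_one] at this
    norm_num at this ⊢
    linarith
  have h20 : (20 : ℝ) ^ k ≤ (81 / 55) ^ n := by
    calc (20 : ℝ) ^ k ≤ ((81 / 55 : ℝ) ^ 10) ^ k := pow_le_pow_left₀ (by norm_num) (by norm_num) k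
      _ = (81 / 55) ^ (10 * k) := (pow_mul _ _ _).symm
      _ ≤ (81 / 55) ^ n := pow_le_pow_right₀ (by norm_num) hkn.le
  have e : (1 / 2 : ℝ) ^ (n - k) = (1 / 2) ^ n * 2 ^ k := by
    have : (1 / 2 : ℝ) ^ (n - k) * (1 / 2) ^ k = (1 / 2) ^ n := by
      rw [← pow_add, Nat.sub_add_cancel (by omega)]
    rw [← this, mul_assoc, ← mul_pow]
    norm_num
  have h2 : (n.choose k : ℝ) * 2 ^ k ≤ (11 / 10) ^ n * 20 ^ k := by
    calc (n.choose k : ℝ) * 2 ^ k = (n.choose k : ℝ) * (1 / 10) ^ k * 20 ^ k := by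
          rw [mul_assoc, ← mul_pow]; norm_num
      _ ≤ _ := mul_le_mul_of_nonneg_right hc (by positivity)
  calc ‖a n‖ * n.choose k * (1 / 2) ^ (n - k)
      = ‖a n‖ * ((n.choose k : ℝ) * 2 ^ k) * (1 / 2) ^ n := by rw [e]; ring
    _ ≤ ‖a n‖ * ((11 / 10) ^ n * (81 / 55) ^ n) * (1 / 2) ^ n := by
        refine mul_le_mul_of_nonneg_right (mul_le_mul_of_nonneg_left (h2.trans ?_)
          (norm_nonneg _)) (by positivity)
        exact mul_le_mul_of_nonneg_left h20 (by positivity)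
    _ = ‖a n‖ * (9 / 10) ^ n * (9 / 10) ^ n := by
        rw [mul_assoc, mul_assoc (‖a n‖), ← mul_pow, ← mul_pow, ← mul_pow]; norm_num
    _ ≤ A * (9 / 10) ^ n := mul_le_mul_of_nonneg_right ha (by positivity)

/-- A coefficient of an exponential sum is at most its maximum. -/
theorem norm_coeff_le (T : Finset ℕ) (c : ℕ → ℂ) {k : ℕ} {B : ℝ} (hT : ∀ n ∈ T, k ≤ n)
    (hB : ∀ t, ‖expSum T c (fun n => n - k) t‖ ≤ B) {m : ℕ} (hm : m ∈ T) : ‖c m‖ ≤ B := by
  obtain ⟨L, hL⟩ : ∃ L, L = T.sup id + 1 := ⟨_, rfl⟩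
  have hlt : ∀ n ∈ T, n < L := fun n hn =>
    hL ▸ Nat.lt_succ_of_le (le_sup (f := id) hn)
  obtain ⟨z, hz⟩ : ∃ z : ℂ, z = cexp (2 * Real.pi * I / L) := ⟨_, rfl⟩
  have hprim : IsPrimitiveRoot z L := hz ▸ Complex.isPrimitiveRoot_exp L (by omega)
  have hzn : ‖z‖ = 1 := hprim.norm'_eq_one (by omega)
  obtain ⟨e, he⟩ : ∃ e, e = L - (m - k) := ⟨_, rfl⟩
  have hsum : ∑ j ∈ range L, z ^ (j * e) * expSum T c (fun n => n - k) (2 * Real.pi * j / L) =
      (L : ℂ) * c m := by
    simp only [expSum, mul_sum]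
    rw [sum_comm, sum_eq_single_of_mem m hm fun n hn hne => ?_]
    · have h1 : ∀ j ∈ range L, z ^ (j * e) * (c m * cexp (I * (((m - k : ℕ) : ℝ) *
          (2 * Real.pi * j / L) : ℝ))) = c m := fun j _ => by
        have e1 : cexp (I * (((m - k : ℕ) : ℝ) * (2 * Real.pi * j / L) : ℝ)) =
            z ^ (j * (m - k)) := by
          rw [hz, ← Complex.exp_nat_mul]
          push_cast
          ring_nf
        rw [e1, mul_left_comm, ← pow_add, ← mul_add, he,
          Nat.sub_add_cancel (by have := hlt m hm; omega), mul_comm j, pow_mul, hprim.pow_eq_one,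
          one_pow, mul_one]
      rw [sum_congr rfl h1, sum_const, card_range, nsmul_eq_mul]
    · have h1 : ∀ j ∈ range L, z ^ (j * e) * (c n * cexp (I * (((n - k : ℕ) : ℝ) *
          (2 * Real.pi * j / L) : ℝ))) = c n * (z ^ (e + (n - k))) ^ j := fun j _ => by
        have e1 : cexp (I * (((n - k : ℕ) : ℝ) * (2 * Real.pi * j / L) : ℝ)) =
            z ^ (j * (n - k)) := by
          rw [hz, ← Complex.exp_nat_mul]
          push_cast
          ring_nf
        rw [e1, mul_left_comm, ← pow_add, ← mul_add, ← pow_mul, mul_comm j]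
      rw [sum_congr rfl h1, ← mul_sum]
      have hne1 : z ^ (e + (n - k)) ≠ 1 := fun h => by
        obtain ⟨q, hq⟩ := hprim.pow_eq_one_iff_dvd _ |>.1 h
        have := hlt n hn
        have := hlt m hm
        have := hT n hn
        have := hT m hm
        rcases Nat.lt_or_ge q 2 with hq2 | hq2
        · interval_cases q <;> omega
        · have := Nat.mul_le_mul_left L hq2
          omega
      rw [geom_sum_eq hne1, ← pow_mul, mul_comm _ L, pow_mul, hprim.pow_eq_one, one_pow, sub_self,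
        zero_div, mul_zero]
  have hL0 : (0 : ℝ) < L := Nat.cast_pos.2 (by omega)
  refine le_of_mul_le_mul_left ?_ hL0
  calc (L : ℝ) * ‖c m‖ = ‖(L : ℂ) * c m‖ := by rw [norm_mul, Complex.norm_natCast]
    _ ≤ ∑ j ∈ range L, ‖z ^ (j * e) * expSum T c (fun n => n - k) (2 * Real.pi * j / L)‖ :=
        hsum ▸ norm_sum_le _ _
    _ ≤ ∑ _j ∈ range L, B := sum_le_sum fun j _ => by
        rw [norm_mul, norm_pow, hzn, one_pow, one_mul]; exact hB _
    _ = (L : ℝ) * B := by rw [sum_const, card_range, nsmul_eq_mul]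

theorem exists_count_le (hgap : Tendsto
    (fun N : ℕ => (#((range N).filter fun n => a n ≠ 0) : ℝ) / N) atTop (𝓝 0))
    {ε : ℝ} (hε : 0 < ε) :
    ∃ C : ℝ, ∀ N : ℕ, (#((range N).filter fun n => a n ≠ 0) : ℝ) ≤ ε * N + C := by
  obtain ⟨N₀, hN₀⟩ := eventually_atTop.1
    ((hgap.eventually (eventually_lt_nhds hε)).and (eventually_gt_atTop 0))
  refine ⟨N₀, fun N => ?_⟩
  rcases le_total N₀ N with h | h
  · have h1 := hN₀ N h
    have := (div_lt_iff₀ (Nat.cast_pos.2 h1.2)).1 h1.1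
    linarith [(Nat.cast_nonneg N₀ : (0 : ℝ) ≤ N₀)]
  · have h1 : (#((range N).filter fun n => a n ≠ 0) : ℝ) ≤ N₀ :=
      Nat.cast_le.2 ((card_filter_le _ _).trans ((card_range N).trans_le h))
    have : 0 ≤ ε * N := by positivity
    linarith

/-- A continuation near `1` makes the radius of convergence exceed `1`. -/
theorem exists_summable (hsum : ∀ r : ℝ, 0 ≤ r → r < 1 → Summable fun n => ‖a n‖ * r ^ n)
    (hgap : Tendsto (fun N : ℕ => (#((range N).filter fun n => a n ≠ 0) : ℝ) / N) atTop (𝓝 0))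
    {g : ℂ → ℂ} {ρ : ℝ} (hρ : 0 < ρ) (hg : DifferentiableOn ℂ g (ball 1 ρ))
    (heq : ∀ z ∈ ball (1 : ℂ) ρ, ‖z‖ < 1 → g z = fseries a z) :
    ∃ R : ℝ, 1 < R ∧ Summable fun n => ‖a n‖ * R ^ n := by
  obtain ⟨R₀, M, α, hR₀, hα, hM, hbd⟩ := exists_taylor_bound hsum hρ hg heq
  obtain ⟨A, hA0, hA⟩ := exists_tail_bound hsum
  obtain ⟨R, hR1, hR2⟩ : ∃ R, 1 / 2 < R ∧ R < min R₀ 1 :=
    exists_between (lt_min hR₀ (by norm_num))
  have hRR : R < R₀ := hR2.trans_le (min_le_left _ _)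
  have hR1' : R < 1 := hR2.trans_le (min_le_right _ _)
  obtain ⟨R₁, hR₁, hR₁'⟩ : ∃ R₁, R₁ = min R₀ 1 ∧ R < R₁ := ⟨_, rfl, hR2⟩
  have hR₁0 : 0 < R₁ := lt_trans (by linarith) hR₁'
  have hR₁le : R₁ ≤ R₀ := hR₁ ▸ min_le_left _ _
  have hR₁1 : R₁ ≤ 1 := hR₁ ▸ min_le_right _ _
  obtain ⟨K, hK⟩ : ∃ K, K = Real.exp 2 * (2 * Real.pi / α + 1) := ⟨_, rfl⟩
  have hK1 : 1 < K := by
    rw [hK]
    exact one_lt_mul_of_lt_of_le (Real.one_lt_exp_iff.2 two_pos)
      (le_add_of_nonneg_left (by positivity))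
  have hlK : 0 < Real.log K := Real.log_pos hK1
  have hq1 : 1 < R₁ / R := (one_lt_div (by linarith)).2 hR₁'
  obtain ⟨ε, hεd⟩ : ∃ ε, ε = Real.log (R₁ / R) / (11 * Real.log K) := ⟨_, rfl⟩
  have hε : 0 < ε := hεd ▸ div_pos (Real.log_pos hq1) (by positivity)
  obtain ⟨C, hC⟩ := exists_count_le hgap hε
  obtain ⟨B, hB⟩ : ∃ B, B = Real.exp ((ε + C) * Real.log K) * (M + 10 * A) + A := ⟨_, rfl⟩
  have hC0 : 0 ≤ ε + C := by
    have := hC 0
    simp at this
    linarith
  have hB0 : 0 ≤ B := by rw [hB]; positivity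
  have hcoef : ∀ k n, k ≤ n → ‖a n‖ * n.choose k * (1 / 2) ^ (n - k) * R ^ k ≤ B := by
    intro k n hkn
    have hRk : R ^ k ≤ 1 := pow_le_one₀ (by linarith) hR1'.le
    rcases lt_or_ge (10 * k) n with hbig | hsmall
    · refine (mul_le_of_le_one_right (by positivity) hRk).trans ((hA k n hbig).trans ?_)
      refine (mul_le_of_le_one_right hA0 (pow_le_one₀ (by norm_num) (by norm_num))).trans ?_
      rw [hB]
      linarith [show 0 ≤ Real.exp ((ε + C) * Real.log K) * (M + 10 * A) by positivity]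
    rcases eq_or_ne (a n) 0 with ha | ha
    · rw [ha, norm_zero, zero_mul, zero_mul, zero_mul]; exact hB0
    obtain ⟨T, hT⟩ : ∃ T, T = (range (10 * k + 1)).filter fun i => a i ≠ 0 ∧ k ≤ i := ⟨_, rfl⟩
    obtain ⟨c, hc⟩ : ∃ c : ℕ → ℂ,
        c = fun i => a i * i.choose k * (1 / 2 : ℂ) ^ (i - k) := ⟨_, rfl⟩
    have hterm : ∀ (t : ℝ) (i : ℕ), taylorTerm a k (cexp (I * t) / 2) i =
        c i * cexp (I * (((i - k : ℕ) : ℝ) * t : ℝ)) := fun t i => by
      rw [hc, taylorTerm, div_eq_mul_one_div, mul_pow, ← Complex.exp_nat_mul]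
      push_cast
      ring_nf
    have harc : ∀ t : ℝ, |t| ≤ α →
        ‖expSum T c (fun i => i - k) t‖ ≤ M / R₀ ^ k + 10 * A := fun t ht => by
      have hs : Summable fun i => taylorTerm a k (cexp (I * t) / 2) i :=
        (summable_norm_taylorTerm hsum k (by
          rw [norm_div, norm_exp_I_mul_ofReal, Complex.norm_two]; norm_num)).of_norm
      have e1 : expSum T c (fun i => i - k) t = (∑' i, taylorTerm a k (cexp (I * t) / 2) i) -
          ∑' i : ℕ, if i ∈ T then 0 else taylorTerm a k (cexp (I * t) / 2) i := by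
        have hs' : Summable fun i => if i ∈ T then 0 else taylorTerm a k (cexp (I * t) / 2) i :=
          Summable.of_norm_bounded hs.norm fun i => by split_ifs <;> simp
        rw [← hs.tsum_sub hs', tsum_eq_sum (s := T) fun i hi => by rw [if_neg hi, sub_self],
          expSum]
        exact sum_congr rfl fun i hi => by rw [if_pos hi, sub_zero, hterm]
      rw [e1]
      refine (norm_sub_le _ _).trans (add_le_add (hbd k t ht) ?_)
      refine tsum_of_norm_bounded (g := fun i : ℕ => A * (9 / 10 : ℝ) ^ i) ?_ fun i => ?_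
      · simpa [show (1 - (9 / 10 : ℝ))⁻¹ = 10 by norm_num, mul_comm] using
          (hasSum_geometric_of_lt_one (show (0 : ℝ) ≤ 9 / 10 by norm_num)
            (by norm_num)).mul_left A
      · split_ifs with hi
        · simp only [norm_zero]; positivity
        rw [taylorTerm, norm_mul, norm_mul, Complex.norm_natCast, norm_pow, norm_div,
          norm_exp_I_mul_ofReal, Complex.norm_two]
        rcases lt_or_ge (10 * k) i with hik | hik
        · exact hA k i hik
        have : a i = 0 ∨ i < k := by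
          by_contra hcon
          simp only [not_or, not_lt] at hcon
          exact hi (hT ▸ mem_filter.2 ⟨mem_range.2 (by omega), hcon.1, hcon.2⟩)
        rcases this with h | h
        · rw [h, norm_zero, zero_mul, zero_mul]; positivity
        · rw [Nat.choose_eq_zero_of_lt h, Nat.cast_zero, mul_zero, zero_mul]; positivity
    have hall := fun t => norm_expSum_le T c (fun i => i - k) hα harc t
    rw [← hK] at hall
    have hm : n ∈ T := hT ▸ mem_filter.2 ⟨mem_range.2 (by omega), ha, hkn⟩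
    have hcn := norm_coeff_le T c (fun i hi => (mem_filter.1 (hT ▸ hi)).2.2) hall hm
    have hcn' : ‖c n‖ = ‖a n‖ * n.choose k * (1 / 2) ^ (n - k) := by
      rw [hc]; simp
    rw [hcn'] at hcn
    refine (mul_le_mul_of_nonneg_right hcn (by positivity)).trans ?_
    have hcard : (#T : ℝ) ≤ ε * (11 * k) + (ε + C) := by
      have h1 : #T ≤ #((range (10 * k + 1)).filter fun i => a i ≠ 0) :=
        card_le_card fun i hi => by
          rw [hT, mem_filter] at hi
          exact mem_filter.2 ⟨hi.1, hi.2.1⟩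
      have h2 := (Nat.cast_le (α := ℝ)).2 h1
      have h3 := hC (10 * k + 1)
      have h4 : 0 ≤ ε * k := by positivity
      push_cast at h3
      linarith
    have hKT : K ^ #T ≤ Real.exp ((ε + C) * Real.log K) * (R₁ / R) ^ k := by
      rw [← Real.rpow_natCast K, Real.rpow_def_of_pos (by linarith),
        ← Real.exp_log (show 0 < R₁ / R by linarith), ← Real.exp_nat_mul, ← Real.exp_add]
      refine Real.exp_le_exp.2 ?_
      have : ε * (11 * Real.log K) = Real.log (R₁ / R) := by rw [hεd]; field_simp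
      have h5 := mul_le_mul_of_nonneg_right hcard hlK.le
      nlinarith
    have hMR : (M / R₀ ^ k + 10 * A) * R ^ k * (R₁ / R) ^ k ≤ M + 10 * A := by
      rw [mul_assoc, ← mul_pow, mul_div_cancel₀ _ (by linarith : R ≠ 0), add_mul]
      refine add_le_add ?_ (mul_le_of_le_one_right (by linarith) (pow_le_one₀ hR₁0.le hR₁1))
      rw [div_mul_eq_mul_div, div_le_iff₀ (pow_pos (by linarith) k)]
      exact mul_le_mul_of_nonneg_left (pow_le_pow_left₀ hR₁0.le hR₁le k) hM
    calc K ^ #T * (M / R₀ ^ k + 10 * A) * R ^ k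
        ≤ Real.exp ((ε + C) * Real.log K) * (R₁ / R) ^ k * (M / R₀ ^ k + 10 * A) * R ^ k := by
          gcongr
      _ = Real.exp ((ε + C) * Real.log K) * ((M / R₀ ^ k + 10 * A) * R ^ k * (R₁ / R) ^ k) := by
          ring
      _ ≤ Real.exp ((ε + C) * Real.log K) * (M + 10 * A) :=
          mul_le_mul_of_nonneg_left hMR (Real.exp_pos _).le
      _ ≤ B := by rw [hB]; linarith
  obtain ⟨R', hR'1, hR'R⟩ := exists_between hR1
  obtain ⟨S, hS1, hS2⟩ := exists_between (show 1 < 1 / 2 + R' by linarith)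
  have hRpos : 0 < R := by linarith
  have hr0 : 0 ≤ R' / R := div_nonneg (by linarith) hRpos.le
  have hr1 : R' / R < 1 := (div_lt_one hRpos).2 hR'R
  refine ⟨S, hS1, Summable.of_nonneg_of_le (fun n => by positivity) (fun n => ?_)
    ((summable_geometric_of_lt_one (by positivity) ((div_lt_one (by linarith)).2 hS2)).mul_left
      (B * ∑' j, (R' / R) ^ j))⟩
  have hkey : ‖a n‖ * (1 / 2 + R') ^ n ≤ B * ∑' j, (R' / R) ^ j := by
    rw [add_comm, add_pow, mul_sum, ← tsum_mul_left]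
    refine (sum_le_sum fun k hk => ?_).trans
      (((summable_geometric_of_lt_one hr0 hr1).mul_left B).sum_le_tsum (range (n + 1))
        fun j _ => mul_nonneg hB0 (pow_nonneg hr0 j))
    have h := hcoef k n (Nat.lt_succ_iff.1 (mem_range.1 hk))
    calc ‖a n‖ * (R' ^ k * (1 / 2) ^ (n - k) * n.choose k)
        = ‖a n‖ * n.choose k * (1 / 2) ^ (n - k) * R ^ k * (R' / R) ^ k := by
          rw [mul_assoc _ (R ^ k), ← mul_pow, mul_div_cancel₀ _ hRpos.ne']
          ring
      _ ≤ B * (R' / R) ^ k := mul_le_mul_of_nonneg_right h (pow_nonneg hr0 k)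
  calc ‖a n‖ * S ^ n = ‖a n‖ * (1 / 2 + R') ^ n * (S / (1 / 2 + R')) ^ n := by
        rw [div_pow]
        have : (1 / 2 + R') ^ n ≠ 0 := pow_ne_zero _ (by linarith)
        field_simp
    _ ≤ _ := mul_le_mul_of_nonneg_right hkey (by positivity)

/-- **Fabry's gap theorem.** -/
theorem no_continuation (hsum : ∀ r : ℝ, 0 ≤ r → r < 1 → Summable fun n => ‖a n‖ * r ^ n)
    (hdiv : ∀ r : ℝ, 1 < r → ¬Summable fun n => ‖a n‖ * r ^ n)
    (hgap : Tendsto (fun N : ℕ => (#((range N).filter fun n => a n ≠ 0) : ℝ) / N) atTop (𝓝 0))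
    {ζ : ℂ} (hζ : ‖ζ‖ = 1) {ρ : ℝ} (hρ : 0 < ρ) {g : ℂ → ℂ}
    (hg : DifferentiableOn ℂ g (ball ζ ρ))
    (heq : ∀ z ∈ ball ζ ρ, ‖z‖ < 1 → g z = fseries a z) : False := by
  have hζ0 : ζ ≠ 0 := fun h => by rw [h, norm_zero] at hζ; exact one_ne_zero hζ.symm
  have hn : ∀ n, ‖a n * ζ ^ n‖ = ‖a n‖ := fun n => by
    rw [norm_mul, norm_pow, hζ, one_pow, mul_one]
  have hmap : ∀ z ∈ ball (1 : ℂ) ρ, ζ * z ∈ ball ζ ρ := fun z hz => by
    rw [mem_ball, dist_eq_norm] at hz ⊢
    rwa [show ζ * z - ζ = ζ * (z - 1) by ring, norm_mul, hζ, one_mul]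
  have hgap' : Tendsto (fun N : ℕ =>
      (#((range N).filter fun n => a n * ζ ^ n ≠ 0) : ℝ) / N) atTop (𝓝 0) :=
    hgap.congr fun N => by
      rw [show ((range N).filter fun n => a n ≠ 0) = (range N).filter fun n => a n * ζ ^ n ≠ 0 from
        filter_congr fun n _ => by simp [hζ0]]
  obtain ⟨R, hR, hs⟩ := exists_summable (a := fun n => a n * ζ ^ n)
    (fun r h0 h1 => by simpa only [hn] using hsum r h0 h1) hgap' hρ
    (g := fun z => g (ζ * z)) (hg.comp (differentiableOn_id.const_mul ζ) hmap) fun z hz hz1 => by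
      rw [heq _ (hmap z hz) (by rw [norm_mul, hζ, one_mul]; exact hz1), fseries, fseries]
      exact tsum_congr fun n => by rw [mul_pow]; ring
  exact hdiv R hR (by simpa only [hn] using hs)

theorem tendsto_count_of_gap {e : ℕ → ℕ} (hsupp : ∀ n, a n ≠ 0 → ∃ k, e k = n)
    (hlim : Tendsto (fun k : ℕ => (e k : ℝ) / k) atTop atTop) :
    Tendsto (fun N : ℕ => (#((range N).filter fun n => a n ≠ 0) : ℝ) / N) atTop (𝓝 0) := by
  refine tendsto_order.2 ⟨fun b hb => Eventually.of_forall fun N => hb.trans_le (by positivity),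
    fun b hb => ?_⟩
  obtain ⟨k₀, hk₀⟩ := eventually_atTop.1 ((hlim.eventually_gt_atTop (2 / b)).and
    (eventually_gt_atTop 0))
  filter_upwards [(tendsto_natCast_atTop_atTop (R := ℝ)).eventually_gt_atTop (2 * (k₀ + 1) / b),
    eventually_gt_atTop 0] with N hN hN0
  have hN' : (0 : ℝ) < N := Nat.cast_pos.2 hN0
  obtain ⟨Q, hQ⟩ : ∃ Q : ℕ, Q = ⌊b * N / 2⌋₊ := ⟨_, rfl⟩
  have hsub : ((range N).filter fun n => a n ≠ 0) ⊆ (range (max k₀ (Q + 1))).image e := by
    intro n hn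
    rw [mem_filter, mem_range] at hn
    obtain ⟨k, rfl⟩ := hsupp n hn.2
    refine mem_image.2 ⟨k, mem_range.2 ?_, rfl⟩
    rcases lt_or_ge k k₀ with h | h
    · exact lt_max_of_lt_left h
    obtain ⟨h1, h2⟩ := hk₀ k h
    rw [lt_div_iff₀ (Nat.cast_pos.2 h2), div_mul_eq_mul_div, div_lt_iff₀ hb] at h1
    have h3 : (e k : ℝ) < N := Nat.cast_lt.2 hn.1
    refine lt_max_of_lt_right (Nat.lt_succ_of_le (hQ ▸ Nat.le_floor ?_))
    nlinarith
  have hcard := ((card_le_card hsub).trans card_image_le).trans (le_of_eq (card_range _))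
  have hQ' : (Q : ℝ) ≤ b * N / 2 := hQ ▸ Nat.floor_le (by positivity)
  rw [div_lt_iff₀ hN']
  rw [div_lt_iff₀ hb] at hN
  refine lt_of_le_of_lt (Nat.cast_le.2 hcard) ?_
  push_cast
  refine max_lt ?_ ?_ <;> nlinarith

end FA.Fabry
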