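import Mathlib.Analysis.SpecialFunctions.Complex.Log
import Mathlib.Analysis.SpecialFunctions.Trigonometric.Basic
import Mathlib.Algebra.Order.ToIntervalMod

/-!
# Turán's first main theorem

An exponential sum with `n` terms is bounded everywhere by `(e ² (2 π / α + 1)) ^ n` times its
bound on `|t| ≤ α`: on `n` points `w` of the disc `w ^ M` agrees with a polynomial of degree `< n`
and coefficient sum at most `∑_{k < n} 2 ^ k (M choose k)`.
-/

set_option autoImplicit false

noncomputable section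

namespace FA.Fabry

open Finset Complex

theorem sum_range_choose_eq (M k : ℕ) : ∑ a ∈ range M, a.choose k = M.choose (k + 1) := by
  induction M with
  | zero => simp
  | succ M ih => rw [sum_range_succ, ih, Nat.choose_succ_succ, add_comm]

/-- **Interpolation of `w ^ M` with small coefficients.** -/
theorem exists_coeff_interpolate : ∀ (n M : ℕ) (w : ℕ → ℂ), (∀ i < n, ‖w i‖ ≤ 1) →
    ∃ b : ℕ → ℂ, (∀ i < n, ∑ k ∈ range n, b k * w i ^ k = w i ^ M) ∧
      ∑ k ∈ range n, ‖b k‖ ≤ ∑ k ∈ range n, (2 : ℝ) ^ k * M.choose k := by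
  intro n
  induction n with
  | zero => exact fun M w _ => ⟨fun _ => 0, fun i hi => absurd hi (Nat.not_lt_zero i), by simp⟩
  | succ n ih =>
    intro M w hw
    choose b hb hbn using fun a : ℕ => ih a (fun i => w (i + 1)) fun i hi => hw _ (by omega)
    obtain ⟨S, hS⟩ : ∃ S : ℕ → ℂ, S = fun k => ∑ a ∈ range M, w 0 ^ (M - 1 - a) * b a k :=
      ⟨_, rfl⟩
    refine ⟨fun k => (if k = 0 then w 0 ^ M else 0) + (if k = 0 then 0 else S (k - 1)) -
      if k < n then w 0 * S k else 0, fun i hi => ?_, ?_⟩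
    · have e : ∑ k ∈ range (n + 1), ((if k = 0 then w 0 ^ M else 0) +
          (if k = 0 then 0 else S (k - 1)) - if k < n then w 0 * S k else 0) * w i ^ k =
          w 0 ^ M + (w i - w 0) * ∑ k ∈ range n, S k * w i ^ k := by
        have h1 : ∑ k ∈ range (n + 1), (if k = 0 then w 0 ^ M else 0) * w i ^ k = w 0 ^ M := by
          rw [sum_eq_single 0 (fun k _ hk => by rw [if_neg hk, zero_mul])
            (fun h => absurd (mem_range.2 n.succ_pos) h), if_pos rfl, pow_zero, mul_one]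
        have h2 : ∑ k ∈ range (n + 1), (if k = 0 then 0 else S (k - 1)) * w i ^ k =
            w i * ∑ k ∈ range n, S k * w i ^ k := by
          rw [sum_range_succ', if_pos rfl, zero_mul, add_zero, mul_sum]
          refine sum_congr rfl fun k _ => ?_
          rw [if_neg k.succ_ne_zero, Nat.add_sub_cancel, pow_succ]
          ring
        have h3 : ∑ k ∈ range (n + 1), (if k < n then w 0 * S k else 0) * w i ^ k =
            w 0 * ∑ k ∈ range n, S k * w i ^ k := by
          rw [sum_range_succ, if_neg (lt_irrefl n), zero_mul, add_zero, mul_sum]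
          exact sum_congr rfl fun k hk => by rw [if_pos (mem_range.1 hk), mul_assoc]
        simp only [sub_mul, add_mul, sum_sub_distrib, sum_add_distrib, h1, h2, h3]
        ring
      rw [e]
      rcases i with _ | i
      · rw [sub_self, zero_mul, add_zero]
      have h : ∑ k ∈ range n, S k * w (i + 1) ^ k =
          ∑ a ∈ range M, w (i + 1) ^ a * w 0 ^ (M - 1 - a) := by
        simp only [hS, sum_mul]
        rw [sum_comm]
        refine sum_congr rfl fun a _ => ?_
        rw [← hb a i (by omega), sum_mul]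
        exact sum_congr rfl fun k _ => by ring
      rw [h, mul_comm (w (i + 1) - w 0), geom_sum₂_mul]
      ring
    · have hS' : ∑ k ∈ range n, ‖S k‖ ≤
          ∑ k ∈ range n, (2 : ℝ) ^ k * M.choose (k + 1) := by
        calc ∑ k ∈ range n, ‖S k‖ ≤ ∑ k ∈ range n, ∑ a ∈ range M, ‖b a k‖ := by
              refine sum_le_sum fun k _ => ?_
              rw [hS]
              refine (norm_sum_le _ _).trans (sum_le_sum fun a _ => ?_)
              rw [norm_mul, norm_pow]
              exact mul_le_of_le_one_left (norm_nonneg _)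
                (pow_le_one₀ (norm_nonneg _) (hw 0 n.succ_pos))
          _ = ∑ a ∈ range M, ∑ k ∈ range n, ‖b a k‖ := sum_comm
          _ ≤ ∑ a ∈ range M, ∑ k ∈ range n, (2 : ℝ) ^ k * a.choose k :=
              sum_le_sum fun a _ => hbn a
          _ = _ := by
              rw [sum_comm]
              refine sum_congr rfl fun k _ => ?_
              rw [← mul_sum, ← Nat.cast_sum, sum_range_choose_eq]
      refine (sum_le_sum fun k _ => (norm_sub_le _ _).trans
        (add_le_add (norm_add_le _ _) le_rfl)).trans ?_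
      rw [sum_add_distrib, sum_add_distrib, sum_range_succ' (fun k => (2 : ℝ) ^ k * M.choose k)]
      have h1 : ∑ k ∈ range (n + 1), ‖if k = 0 then w 0 ^ M else 0‖ ≤ 1 := by
        rw [sum_eq_single 0 (fun k _ hk => by rw [if_neg hk, norm_zero])
          (fun h => absurd (mem_range.2 n.succ_pos) h), if_pos rfl, norm_pow]
        exact pow_le_one₀ (norm_nonneg _) (hw 0 n.succ_pos)
      have h2 : ∑ k ∈ range (n + 1), ‖if k = 0 then 0 else S (k - 1)‖ =
          ∑ k ∈ range n, ‖S k‖ := by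
        rw [sum_range_succ', if_pos rfl, norm_zero, add_zero]
        exact sum_congr rfl fun k _ => by rw [if_neg k.succ_ne_zero, Nat.add_sub_cancel]
      have h3 : ∑ k ∈ range (n + 1), ‖if k < n then w 0 * S k else 0‖ ≤
          ∑ k ∈ range n, ‖S k‖ := by
        rw [sum_range_succ, if_neg (lt_irrefl n), norm_zero, add_zero]
        refine sum_le_sum fun k hk => ?_
        rw [if_pos (mem_range.1 hk), norm_mul]
        exact mul_le_of_le_one_left (norm_nonneg _) (hw 0 n.succ_pos)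
      have h4 : ∑ k ∈ range n, (2 : ℝ) ^ (k + 1) * M.choose (k + 1) =
          2 * ∑ k ∈ range n, (2 : ℝ) ^ k * M.choose (k + 1) := by
        rw [mul_sum]
        exact sum_congr rfl fun k _ => by rw [pow_succ]; ring
      simp only [h2, h4, pow_zero, Nat.choose_zero_right, Nat.cast_one, one_mul]
      linarith

theorem sum_two_pow_choose_le {n M : ℕ} (hn : 0 < n) (hnM : n ≤ M) :
    ∑ k ∈ range n, (2 : ℝ) ^ k * M.choose k ≤ (Real.exp 2 * ((M : ℝ) / n)) ^ n := by
  have hn' : (0 : ℝ) < n := Nat.cast_pos.2 hn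
  have hM : (0 : ℝ) < M := Nat.cast_pos.2 (hn.trans_le hnM)
  obtain ⟨x, hx⟩ : ∃ x, x = (n : ℝ) / M := ⟨_, rfl⟩
  have hx0 : 0 < x := hx ▸ div_pos hn' hM
  have hx1 : x ≤ 1 := hx ▸ (div_le_one hM).2 (Nat.cast_le.2 hnM)
  have h1 : ∑ k ∈ range n, (2 : ℝ) ^ k * M.choose k ≤
      ((M : ℝ) / n) ^ n * ∑ k ∈ range (M + 1), (2 * x) ^ k * M.choose k := by
    rw [mul_sum]
    refine (sum_le_sum fun k hk => ?_).trans (sum_le_sum_of_subset_of_nonneg
      (range_subset_range.2 (by omega)) fun k _ _ => by positivity)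
    have e : ((M : ℝ) / n) ^ n * x ^ n = 1 := by
      rw [← mul_pow, hx, div_mul_div_comm, mul_comm (M : ℝ), div_self (by positivity), one_pow]
    calc (2 : ℝ) ^ k * M.choose k = ((M : ℝ) / n) ^ n * x ^ n * (2 ^ k * M.choose k) := by
          rw [e, one_mul]
      _ ≤ ((M : ℝ) / n) ^ n * x ^ k * (2 ^ k * M.choose k) := by
          refine mul_le_mul_of_nonneg_right (mul_le_mul_of_nonneg_left
            (pow_le_pow_of_le_one hx0.le hx1 (mem_range.1 hk).le) (by positivity)) (by positivity)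
      _ = ((M : ℝ) / n) ^ n * ((2 * x) ^ k * M.choose k) := by ring
  refine h1.trans ?_
  have h2 : ∑ k ∈ range (M + 1), (2 * x) ^ k * (M.choose k : ℝ) = (2 * x + 1) ^ M := by
    rw [add_pow]
    exact sum_congr rfl fun k _ => by simp
  rw [h2, mul_pow (Real.exp 2), mul_comm (Real.exp 2 ^ n), ← Real.exp_nat_mul]
  refine mul_le_mul_of_nonneg_left ?_ (by positivity)
  calc (2 * x + 1) ^ M ≤ Real.exp (2 * x) ^ M :=
        pow_le_pow_left₀ (by positivity) (Real.add_one_le_exp _) M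
    _ = Real.exp ((n : ℝ) * 2) := by
        rw [← Real.exp_nat_mul, hx]
        congr 1
        field_simp

/-- An exponential sum. -/
def expSum {ι : Type*} (T : Finset ι) (c : ι → ℂ) (φ : ι → ℕ) (t : ℝ) : ℂ :=
  ∑ i ∈ T, c i * cexp (I * ((φ i : ℝ) * t : ℝ))

theorem expSum_add_int_mul {ι : Type*} (T : Finset ι) (c : ι → ℂ) (φ : ι → ℕ) (t : ℝ) (l : ℤ) :
    expSum T c φ (t + l * (2 * Real.pi)) = expSum T c φ t := by
  refine sum_congr rfl fun i _ => ?_
  congr 1
  rw [Complex.exp_eq_exp_iff_exists_int]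
  exact ⟨(φ i : ℤ) * l, by push_cast; ring⟩

/-- **Turán's lemma.** -/
theorem norm_expSum_le {ι : Type*} (T : Finset ι) (c : ι → ℂ) (φ : ι → ℕ) {α B : ℝ} (hα : 0 < α)
    (hB : ∀ t, |t| ≤ α → ‖expSum T c φ t‖ ≤ B) (t : ℝ) :
    ‖expSum T c φ t‖ ≤ (Real.exp 2 * (2 * Real.pi / α + 1)) ^ #T * B := by
  rcases T.eq_empty_or_nonempty with rfl | hT
  · simpa [expSum] using (norm_nonneg _).trans (hB 0 (by simp [hα.le]))
  obtain ⟨n, hn⟩ : ∃ n, n = #T := ⟨_, rfl⟩
  have hn0 : 0 < n := hn ▸ hT.card_pos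
  have hn' : (0 : ℝ) < n := Nat.cast_pos.2 hn0
  rw [← hn]
  obtain ⟨h, hh⟩ : ∃ h : ℝ, h = α / n := ⟨_, rfl⟩
  have hh0 : 0 < h := hh ▸ div_pos hα hn'
  obtain ⟨s, hs⟩ : ∃ s : ℝ, s = toIcoMod Real.two_pi_pos 0 (-α - t) := ⟨_, rfl⟩
  have hs0 : 0 ≤ s ∧ s < 2 * Real.pi := by
    have := toIcoMod_mem_Ico' Real.two_pi_pos (-α - t)
    exact ⟨hs ▸ this.1, hs ▸ this.2⟩
  obtain ⟨m, hm⟩ : ∃ m, m = ⌊s / h⌋₊ := ⟨_, rfl⟩
  have hm1 : (m : ℝ) * h ≤ s := by
    rw [← le_div_iff₀ hh0, hm]
    exact Nat.floor_le (div_nonneg hs0.1 hh0.le)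
  have hm2 : s < ((m : ℝ) + 1) * h := by
    rw [← div_lt_iff₀ hh0, hm]
    exact Nat.lt_floor_add_one _
  have hnh : (n : ℝ) * h = α := by rw [hh]; field_simp
  have hpt : ∀ ν : ℕ, m < ν → ν ≤ m + n → ‖expSum T c φ (t + ν * h)‖ ≤ B := by
    intro ν h1 h2
    have e1 : ((m : ℝ) + 1) * h ≤ ν * h :=
      mul_le_mul_of_nonneg_right (by exact_mod_cast h1) hh0.le
    have e2 : (ν : ℝ) * h ≤ ((m : ℝ) + n) * h :=
      mul_le_mul_of_nonneg_right (by exact_mod_cast h2) hh0.le
    have e3 := self_sub_toIcoMod Real.two_pi_pos 0 (-α - t)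
    rw [← hs, zsmul_eq_mul] at e3
    rw [← expSum_add_int_mul T c φ _ (toIcoDiv Real.two_pi_pos 0 (-α - t)), ← e3]
    refine hB _ (abs_le.2 ⟨?_, ?_⟩) <;> linarith [add_mul (m : ℝ) n h]
  classical
  obtain ⟨e, -⟩ : ∃ e : T ≃ Fin n, True := ⟨hn ▸ T.equivFin, trivial⟩
  obtain ⟨w, hw⟩ : ∃ w : ℕ → ℂ, w = fun i => if hi : i < n then
      cexp (I * (-((φ (e.symm ⟨i, hi⟩).1 : ℝ) * h) : ℝ)) else 0 := ⟨_, rfl⟩
  obtain ⟨b, hb, hbn⟩ := exists_coeff_interpolate n (m + n) w fun i hi => by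
    rw [hw]
    dsimp only
    rw [dif_pos hi, norm_exp_I_mul_ofReal]
  have hkey : expSum T c φ t =
      ∑ k ∈ range n, b k * expSum T c φ (t + ((m + n - k : ℕ) : ℝ) * h) := by
    simp only [expSum, mul_sum]
    rw [sum_comm]
    refine sum_congr rfl fun i hi => ?_
    have hwi := hb (e ⟨i, hi⟩) (e ⟨i, hi⟩).2
    simp only [hw, dif_pos (e ⟨i, hi⟩).2, Fin.eta, Equiv.symm_apply_apply] at hwi
    have hz : ∀ k ∈ range n, b k * (c i * cexp (I * ((φ i : ℝ) *
        (t + ((m + n - k : ℕ) : ℝ) * h) : ℝ))) =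
        c i * cexp (I * ((φ i : ℝ) * t : ℝ)) * cexp (I * ((φ i : ℝ) * h * (m + n : ℕ) : ℝ)) *
          (b k * cexp (I * (-((φ i : ℝ) * h) : ℝ)) ^ k) := fun k hk => by
      have hk' : k ≤ m + n := by have := mem_range.1 hk; omega
      have e : cexp (I * ((φ i : ℝ) * (t + ((m + n - k : ℕ) : ℝ) * h) : ℝ)) =
          cexp (I * ((φ i : ℝ) * t : ℝ)) * cexp (I * ((φ i : ℝ) * h * (m + n : ℕ) : ℝ)) *
            cexp (I * (-((φ i : ℝ) * h) : ℝ)) ^ k := by
        rw [← Complex.exp_nat_mul, ← Complex.exp_add, ← Complex.exp_add, Nat.cast_sub hk']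
        push_cast
        ring_nf
      rw [e]
      ring
    rw [sum_congr rfl hz, ← mul_sum, hwi, mul_assoc, ← Complex.exp_nat_mul, ← Complex.exp_add]
    push_cast
    ring_nf
    rw [Complex.exp_zero, mul_one]
  have hB0 : 0 ≤ B := (norm_nonneg _).trans (hB 0 (by simp [hα.le]))
  rw [hkey]
  refine (norm_sum_le _ _).trans ((sum_le_sum fun k hk => ?_).trans ((sum_mul (range n)
    (fun k => ‖b k‖) B).symm.le.trans (mul_le_mul_of_nonneg_right ?_ hB0)))
  · rw [norm_mul]
    have := mem_range.1 hk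
    exact mul_le_mul_of_nonneg_left (hpt _ (by omega) (by omega)) (norm_nonneg _)
  refine hbn.trans ((sum_two_pow_choose_le hn0 (Nat.le_add_left n m)).trans
    (pow_le_pow_left₀ (by positivity) (mul_le_mul_of_nonneg_left ?_ (Real.exp_pos 2).le) n))
  push_cast
  rw [add_div, div_self hn'.ne', add_le_add_iff_right, div_le_div_iff₀ hn' hα]
  calc (m : ℝ) * α = (m : ℝ) * h * n := by rw [← hnh]; ring
    _ ≤ 2 * Real.pi * n := mul_le_mul_of_nonneg_right (hm1.trans hs0.2.le) hn'.le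

end FA.Fabry
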